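import Fermat.Agent.HeckeRed.Inputs
import Fermat.Prelude.Thm_ModularCurve_coeffMap_qExpand

/-!
# Correspondences commute with semilinear automorphisms; Hecke operators commute with Galois
-/

set_option autoImplicit false

noncomputable section

open AlgebraicCurve ModularCurve IntermediateField

namespace Fermat.Agent.GalJ

open Fermat.Agent.FunField Fermat.Agent.FunField.PlaceLemmas Fermat.Agent.HeckeRed
  AlgebraicCurve.SemilinearAut

section

variable {K F F' : Type*} [Field K] [Field F] [Field F'] [Algebra K F] [Algebra K F']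

theorem mem_restrictAlong {φ : F →ₐ[K] F'} {hφ : φ.toRingHom.IsIntegral} {w : Place K F'}
    {f : F} : f ∈ (w.restrictAlong φ hφ).toValuationSubring ↔ φ f ∈ w.toValuationSubring := by
  let _ := algebraAlong φ
  have _ := isScalarTower_along φ
  have _ := isIntegral_along φ hφ
  exact Place.mem_restrict_iff w

/-- restriction of places is equivariant -/
theorem restrictAlong_smul {φ : F →ₐ[K] F'} (hφ : φ.toRingHom.IsIntegral)
    {g : SemilinearAut K F} {g' : SemilinearAut K F'}
    (h : IntertwinesAlong (φ : F →+* F') g g') (w : Place K F') :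
    (g' • w).restrictAlong φ hφ = g • w.restrictAlong φ hφ := by
  refine Place.ext ?_
  ext f
  rw [mem_restrictAlong, smul_toValuationSubring, smul_toValuationSubring,
    ValuationSubring.mem_pointwise_smul_iff_inv_smul_mem,
    ValuationSubring.mem_pointwise_smul_iff_inv_smul_mem, mem_restrictAlong]
  have h1 := h.inv f
  have h2 : g'⁻¹ • (φ f) = φ (g⁻¹ • f) := h1
  rw [h2]

theorem ramificationIndexAlong_smul {φ : F →ₐ[K] F'} (hφ : φ.toRingHom.IsIntegral)
    {g : SemilinearAut K F} {g' : SemilinearAut K F'}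
    (h : IntertwinesAlong (φ : F →+* F') g g') (w : Place K F') :
    (g' • w).ramificationIndexAlong φ = w.ramificationIndexAlong φ := by
  obtain ⟨f, hf0, hf⟩ := exists_ord_eq_one (w.restrictAlong φ hφ)
  have h1 := Place.ord_restrictAlong φ hφ w f
  have h2 := Place.ord_restrictAlong φ hφ (g' • w) (g • f)
  have h3 : g' • (φ f) = φ (g • f) := h f
  rw [← h3, ord_smul, restrictAlong_smul hφ h, ord_smul, h1, hf] at h2
  simp only [mul_one] at h2
  exact_mod_cast h2.symm

theorem deg_restrictAlong_mul (φ : F →ₐ[K] F') (hφ : φ.toRingHom.IsIntegral) (w : Place K F') :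
    (w.restrictAlong φ hφ).deg * w.inertiaDegAlong φ hφ = w.deg := by
  let _ := algebraAlong φ
  have _ := isScalarTower_along φ
  have _ := isIntegral_along φ hφ
  exact Place.deg_restrict_mul_inertiaDeg w

theorem inertiaDegAlong_smul [IsFF K F] {φ : F →ₐ[K] F'} (hφ : φ.toRingHom.IsIntegral)
    {g : SemilinearAut K F} {g' : SemilinearAut K F'}
    (h : IntertwinesAlong (φ : F →+* F') g g') (w : Place K F') :
    (g' • w).inertiaDegAlong φ hφ = w.inertiaDegAlong φ hφ := by
  have h1 := deg_restrictAlong_mul φ hφ w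
  have h2 := deg_restrictAlong_mul φ hφ (g' • w)
  rw [restrictAlong_smul hφ h, deg_smul, deg_smul, ← h1] at h2
  exact Nat.eq_of_mul_eq_mul_left (deg_pos _) h2

theorem pullbackAlong_smul [HasPrincipalDivisors K F'] {φ : F →ₐ[K] F'}
    (hφ : φ.toRingHom.IsIntegral) {g : SemilinearAut K F} {g' : SemilinearAut K F'}
    (h : IntertwinesAlong (φ : F →+* F') g g') (D : Divisor K F) :
    Divisor.pullbackAlong φ hφ (g • D) = g' • Divisor.pullbackAlong φ hφ D := by
  ext w
  rw [Divisor.pullbackAlong_apply, divisor_smul_apply, divisor_smul_apply,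
    Divisor.pullbackAlong_apply, ramificationIndexAlong_smul hφ h.inv,
    restrictAlong_smul hφ h.inv]

theorem pushforwardAlong_smul [IsFF K F] {φ : F →ₐ[K] F'}
    (hφ : φ.toRingHom.IsIntegral) {g : SemilinearAut K F} {g' : SemilinearAut K F'}
    (h : IntertwinesAlong (φ : F →+* F') g g') (D : Divisor K F') :
    Divisor.pushforwardAlong φ hφ (g' • D) = g • Divisor.pushforwardAlong φ hφ D := by
  induction D using Finsupp.induction with
  | zero => rw [smul_zero, map_zero, smul_zero]
  | single_add P n D _ _ ih =>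
    rw [smul_add, map_add, map_add, smul_add, ih, smul_single, Divisor.pushforwardAlong_single,
      Divisor.pushforwardAlong_single, smul_single, restrictAlong_smul hφ h,
      inertiaDegAlong_smul hφ h]

theorem correspondence_smul [IsFF K F] [HasPrincipalDivisors K F'] {φ ψ : F →ₐ[K] F'}
    (hφ : φ.toRingHom.IsIntegral) (hψ : ψ.toRingHom.IsIntegral)
    {g : SemilinearAut K F} {g' : SemilinearAut K F'}
    (h : IntertwinesAlong (φ : F →+* F') g g') (h' : IntertwinesAlong (ψ : F →+* F') g g')
    (D : Divisor K F) :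
    Divisor.correspondence φ ψ hφ hψ (g • D) = g • Divisor.correspondence φ ψ hφ hψ D := by
  rw [Divisor.correspondence_apply, Divisor.correspondence_apply, pullbackAlong_smul hφ h,
    pushforwardAlong_smul hψ h']

theorem pic0_correspondence_smul [IsFF K F] [HasPrincipalDivisors K F'] {φ ψ : F →ₐ[K] F'}
    (hφ : φ.toRingHom.IsIntegral) (hψ : ψ.toRingHom.IsIntegral)
    (hFI : FundamentalIdentityAlong K φ hφ) (hfin : FiniteAlong K ψ)
    (hN : NormFormulaAlong K ψ hfin)
    {g : SemilinearAut K F} {g' : SemilinearAut K F'}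
    (h : IntertwinesAlong (φ : F →+* F') g g') (h' : IntertwinesAlong (ψ : F →+* F') g g')
    (x : Pic0 K F) :
    Pic0.correspondence φ ψ hφ hψ hFI hfin hN (g • x) =
      g • Pic0.correspondence φ ψ hφ hψ hFI hfin hN x := by
  obtain ⟨D, rfl⟩ := Pic0.mk_surjective x
  rw [pic0_smul_mk, Pic0.correspondence_mk, Pic0.correspondence_mk, pic0_smul_mk]
  congr 1
  apply Subtype.ext
  rw [Pic0.coe_degZeroCorrespondence, coe_degZeroSMulHom, coe_degZeroSMulHom,
    Pic0.coe_degZeroCorrespondence]
  exact correspondence_smul hφ hψ h h' _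

end

section Hecke

variable (L : Type*) [Field L] [Algebra ℚ L] [IsAlgClosed L] (N ℓ : ℕ) [NeZero N] [NeZero ℓ]

omit [IsAlgClosed L] [NeZero N] in
theorem intertwines_beta (σ : L ≃ₐ[ℚ] L) :
    IntertwinesAlong (heckeBetaBar L N ℓ :
      laurentBaseChange L (modularFunctionFieldFull N) →+*
        laurentBaseChange L (modularFunctionFieldFull (N * ℓ)))
      (arithmeticGalois (modularFunctionFieldFull N) σ)
      (arithmeticGalois (modularFunctionFieldFull (N * ℓ)) σ) := by
  intro f
  apply Subtype.ext
  show coeffMap (σ : L →+* L) (qExpand L ℓ (f : LaurentSeries L)) =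
    qExpand L ℓ (coeffMap (σ : L →+* L) (f : LaurentSeries L))
  exact coeffMap_qExpand _ _ _

omit [IsAlgClosed L] in
theorem intertwines_alpha (σ : L ≃ₐ[ℚ] L) :
    IntertwinesAlong (heckeAlphaBar L N ℓ :
      laurentBaseChange L (modularFunctionFieldFull N) →+*
        laurentBaseChange L (modularFunctionFieldFull (N * ℓ)))
      (arithmeticGalois (modularFunctionFieldFull N) σ)
      (arithmeticGalois (modularFunctionFieldFull (N * ℓ)) σ) := by
  intro f
  apply Subtype.ext
  have h1 : ((arithmeticGalois (modularFunctionFieldFull (N * ℓ)) σ • heckeAlphaBar L N ℓ f :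
      laurentBaseChange L (modularFunctionFieldFull (N * ℓ))) : LaurentSeries L) =
      coeffMap (σ : L →+* L) (f : LaurentSeries L) := by
    rw [coe_arithmeticGalois_smul, coe_heckeAlphaBar]
  have h2 : ((heckeAlphaBar L N ℓ (arithmeticGalois (modularFunctionFieldFull N) σ • f) :
      laurentBaseChange L (modularFunctionFieldFull (N * ℓ))) : LaurentSeries L) =
      coeffMap (σ : L →+* L) (f : LaurentSeries L) := by
    rw [coe_heckeAlphaBar, coe_arithmeticGalois_smul]
  exact h1.trans h2.symm

/-- Hecke operators commute with the arithmetic Galois action. -/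
theorem heckeOperatorAlong_smul (σ : L ≃ₐ[ℚ] L)
    (x : Pic0 L (laurentBaseChange L (modularFunctionFieldFull N))) :
    heckeOperatorAlong L N ℓ (σ • x) = σ • heckeOperatorAlong L N ℓ x := by
  rw [galois_smul_pic0_def, galois_smul_pic0_def, heckeOperatorAlong_eq (alphaInt L N ℓ)
    (betaInt L N ℓ) (fundamentalIdentityAlong _ _ (finiteAlong_of_isFF _))
    (finiteAlong_of_isFF _) (normFormulaAlong _ _)]
  exact pic0_correspondence_smul _ _ _ _ _ (intertwines_beta L N ℓ σ)
    (intertwines_alpha L N ℓ σ) x

end Hecke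

/-- The field `T_smul` of `TateInput`. -/
theorem heckeOperatorBar_smul (N : ℕ) [NeZero N] (ℓ : Nat.Primes)
    (σ : AlgebraicClosure ℚ ≃ₐ[ℚ] AlgebraicClosure ℚ) (x : JZero N) :
    heckeOperatorBar N ℓ (σ • x) = σ • heckeOperatorBar N ℓ x := by
  have : NeZero (ℓ : ℕ) := ⟨ℓ.2.ne_zero⟩
  exact heckeOperatorAlong_smul (AlgebraicClosure ℚ) N ℓ σ x

end Fermat.Agent.GalJ
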