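import Fermat.Agent.HeckeRed.Inputs

/-!
# Every point of `J₀(N)(ℚ̄)` is fixed by an open subgroup of the Galois group
-/

set_option autoImplicit false

noncomputable section

open AlgebraicCurve ModularCurve IntermediateField

namespace Fermat.Agent.GalJ

open Fermat.Agent.FunField Fermat.Agent.HeckeRed Fermat.Agent.PushPull

section

variable {L : Type*} [Field L] [Algebra ℚ L] [Algebra.IsAlgebraic ℚ L]
  (F₀ : IntermediateField ℚ (LaurentSeries ℚ))

/-- Elements of the base-changed field are fixed by an open subgroup. -/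
theorem level_elem {x : LaurentSeries L} (hx : x ∈ laurentBaseChange L F₀) :
    ∃ E : IntermediateField ℚ L, FiniteDimensional ℚ E ∧
      ∀ σ : L ≃ₐ[ℚ] L, (∀ z ∈ E, σ z = z) → coeffMap (σ : L →+* L) x = x := by
  rw [mem_laurentBaseChange_iff] at hx
  induction hx using Subfield.closure_induction with
  | mem y hy =>
      rcases hy with ⟨a, rfl⟩ | ⟨z, hz, rfl⟩
      · refine ⟨ℚ⟮a⟯, adjoin.finiteDimensional (Algebra.IsIntegral.isIntegral a), fun σ hσ => ?_⟩
        rw [coeffMap_algebraMap]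
        congr 1
        exact hσ a (mem_adjoin_simple_self ℚ a)
      · exact ⟨⊥, inferInstance, fun σ _ => coeffMap_coeffEmb σ z⟩
  | one => exact ⟨⊥, inferInstance, fun σ _ => map_one _⟩
  | add x y _ _ hx hy =>
      obtain ⟨E, hE, h1⟩ := hx
      obtain ⟨E', hE', h2⟩ := hy
      refine ⟨E ⊔ E', inferInstance, fun σ hσ => ?_⟩
      rw [map_add, h1 σ (fun z hz => hσ z (le_sup_left (a := E) hz)),
        h2 σ (fun z hz => hσ z (le_sup_right (a := E) hz))]
  | neg x _ hx =>
      obtain ⟨E, hE, h1⟩ := hx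
      exact ⟨E, hE, fun σ hσ => by rw [map_neg, h1 σ hσ]⟩
  | inv x _ hx =>
      obtain ⟨E, hE, h1⟩ := hx
      exact ⟨E, hE, fun σ hσ => by rw [map_inv₀, h1 σ hσ]⟩
  | mul x y _ _ hx hy =>
      obtain ⟨E, hE, h1⟩ := hx
      obtain ⟨E', hE', h2⟩ := hy
      refine ⟨E ⊔ E', inferInstance, fun σ hσ => ?_⟩
      rw [map_mul, h1 σ (fun z hz => hσ z (le_sup_left (a := E) hz)),
        h2 σ (fun z hz => hσ z (le_sup_right (a := E) hz))]

/-- Places are fixed by an open subgroup. -/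
theorem level_place [IsFF L (laurentBaseChange L F₀)] (P : Place L (laurentBaseChange L F₀)) :
    ∃ E : IntermediateField ℚ L, FiniteDimensional ℚ E ∧
      ∀ σ : L ≃ₐ[ℚ] L, (∀ z ∈ E, σ z = z) → arithmeticGalois F₀ σ • P = P := by
  obtain ⟨f, hP, hf⟩ := exists_pole_only P
  obtain ⟨E, hE, h⟩ := level_elem F₀ f.2
  refine ⟨E, hE, fun σ hσ => ?_⟩
  have h1 : arithmeticGalois F₀ σ • f = f := Subtype.ext (h σ hσ)
  have h2 := SemilinearAut.ord_smul (arithmeticGalois F₀ σ) P f
  rw [h1] at h2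
  by_contra hne
  have h3 := hf _ hne
  omega

theorem level_divisor [IsFF L (laurentBaseChange L F₀)] (D : Divisor L (laurentBaseChange L F₀)) :
    ∃ E : IntermediateField ℚ L, FiniteDimensional ℚ E ∧
      ∀ σ : L ≃ₐ[ℚ] L, (∀ z ∈ E, σ z = z) → arithmeticGalois F₀ σ • D = D := by
  induction D using Finsupp.induction with
  | zero => exact ⟨⊥, inferInstance, fun σ _ => smul_zero _⟩
  | single_add P n D _ _ ih =>
    obtain ⟨E, hE, h1⟩ := ih
    obtain ⟨E', hE', h2⟩ := level_place F₀ P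
    refine ⟨E ⊔ E', inferInstance, fun σ hσ => ?_⟩
    rw [smul_add, h1 σ (fun z hz => hσ z (le_sup_left (a := E) hz)), SemilinearAut.smul_single,
      h2 σ (fun z hz => hσ z (le_sup_right (a := E) hz))]

/-- Divisor classes are fixed by an open subgroup. -/
theorem level_pic0 [IsFF L (laurentBaseChange L F₀)] (x : Pic0 L (laurentBaseChange L F₀)) :
    ∃ E : IntermediateField ℚ L, FiniteDimensional ℚ E ∧
      ∀ σ : L ≃ₐ[ℚ] L, (∀ z ∈ E, σ z = z) → σ • x = x := by
  obtain ⟨D, rfl⟩ := Pic0.mk_surjective x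
  obtain ⟨E, hE, h⟩ := level_divisor F₀ (D : Divisor L (laurentBaseChange L F₀))
  refine ⟨E, hE, fun σ hσ => ?_⟩
  rw [galois_smul_pic0_def, SemilinearAut.pic0_smul_mk]
  exact congrArg Pic0.mk (Subtype.ext (h σ hσ))

end

/-- The field `level` of `TateInput`. -/
theorem level_JZero (N : ℕ) [NeZero N] (x : JZero N) :
    ∃ E : IntermediateField ℚ (AlgebraicClosure ℚ), FiniteDimensional ℚ E ∧
      ∀ σ : AlgebraicClosure ℚ ≃ₐ[ℚ] AlgebraicClosure ℚ, (∀ z ∈ E, σ z = z) → σ • x = x :=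
  have : Algebra.IsAlgebraic ℚ (AlgebraicClosure ℚ) := AlgebraicClosure.isAlgebraic ℚ
  level_pic0 (modularFunctionFieldFull N) x

end Fermat.Agent.GalJ
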